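/-
P3-G block (G-A)/(G-L) glue, file 3: **local roots of a second difference at every closed point of a
chart**, in the exact output shape `P3G.Assembly.PowCover.LocalRoots`.

Setting = (G-C): `O` a discrete valuation ring, `K₀ = Frac O` of characteristic `0`, `F₀ ⊇ K₀(s)` finite,
chart `R = chartAlg O F₀ {s}`; finitely many vertical valuation rings `V i ⊇ R` with `ϖ`-saturation.
`σ` a ring automorphism of `F₀` preserving every `V i`-valuation and acting trivially on the residue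
fields of the `V i`; `τ` the induced permutation of the places of `F₀ / K₀`; `σ` fixes the closed points
of the special fibre (`hC`).  If `e ∣ div f₀` and the support of `div f₀` satisfies (Loc-P) at every
closed point, then `h = sd σ f₀ = σ²f₀ · f₀ / (σ f₀)²` has local `e`-th roots `≡ 1` modulo `ϖ W` at every
closed point: `LocalRoots ϖ (iInfSubring V) s (sd σ f₀) e`.

Pure glue: `UCrit.exists_localRoot_strong_at` (helper1) on top of `SecondDiff` (helper8).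
-/
import Mathlib
import Fermat.Agent.N4.Chart
import Fermat.Agent.N4.IntClosure
import Fermat.Agent.N4.Cover.Main
import Fermat.Agent.P3G.UCrit
import Fermat.Agent.P3G.Assembly.PowCover

set_option autoImplicit false
set_option linter.unusedSectionVars false
set_option linter.style.haveILetI false

open Polynomial IntermediateField AlgebraicCurve

namespace Fermat.Agent.P3G.Glue.LocalRootsSd

open Fermat.Agent.N4.Chart Fermat.Agent.N4.IntClosure
  Fermat.Agent.P3G.SecondDiff Fermat.Agent.P3G.UCrit Fermat.Agent.P3G.Cover.OfValuations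
  Fermat.Agent.P3G.Assembly.PowCover
open Fermat.Agent.N4.Cover.Main (isFractionRing_chartAlg isIntegrallyClosed_chartAlg)

universe u

variable {O K₀ : Type*} [CommRing O] [IsDomain O] [IsDiscreteValuationRing O]
  [Field K₀] [CharZero K₀] [Algebra O K₀] [IsFractionRing O K₀]
variable {F₀ : Type u} [Field F₀] [Algebra K₀ F₀] [Algebra O F₀] [IsScalarTower O K₀ F₀]

/-- `Place.ord` is multiplicative (the `OrdMul` of `SecondDiff`). -/
theorem ordMul_place : OrdMul (fun (Q : Place K₀ F₀) (x : F₀) => Q.ord x) :=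
  fun Q _ _ hf hg => Q.ord_mul hf hg

/-- **Local roots of a second difference.** -/
theorem localRoots_sd (s : F₀) (hs : Transcendental K₀ s) [FiniteDimensional K₀⟮s⟯ F₀]
    {ϖ : O} (hϖ : Irreducible ϖ) {ι : Type*} [Finite ι] (V : ι → ValuationSubring F₀)
    (hV : ∀ i (r : chartAlg O F₀ {s}), algebraMap (chartAlg O F₀ {s}) F₀ r ∈ V i)
    (hϖV : ∀ i, algebraMap (chartAlg O F₀ {s}) F₀ (algebraMap O (chartAlg O F₀ {s}) ϖ) ∈
      (V i).nonunits)
    (hsat : ∀ r : chartAlg O F₀ {s},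
      (∀ i, algebraMap (chartAlg O F₀ {s}) F₀ r ∈ (V i).nonunits) →
        algebraMap O (chartAlg O F₀ {s}) ϖ ∣ r)
    (hπ : ∀ i x, (V i).valuation x < 1 → (V i).valuation x ≤ (V i).valuation (algebraMap O F₀ ϖ))
    (σ : F₀ ≃+* F₀) (hval : ∀ i b, (V i).valuation (σ b) = (V i).valuation b)
    (htriv : ∀ i, ∀ x ∈ V i, σ x - x ∈ (V i).nonunits)
    {τ : Equiv.Perm (Place K₀ F₀)}
    (hτ : Compat (fun (Q : Place K₀ F₀) (x : F₀) => Q.ord x) σ τ)
    (hC : ∀ 𝔫 : Ideal (chartAlg O F₀ {s}), 𝔫.IsMaximal →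
      algebraMap O (chartAlg O F₀ {s}) ϖ ∈ 𝔫 →
      ∀ Q ∈ centredSet K₀ 𝔫, τ.symm Q ∈ centredSet K₀ 𝔫)
    {e : ℕ} {f₀ : F₀} (hf₀ : f₀ ≠ 0)
    (S₀ : Finset (Place K₀ F₀)) (hS₀ : ∀ Q : Place K₀ F₀, Q.ord f₀ ≠ 0 → Q ∈ S₀)
    (hdiv : ∀ Q : Place K₀ F₀, (e : ℤ) ∣ Q.ord f₀)
    (hLocP : ∀ 𝔫 : Ideal (chartAlg O F₀ {s}), 𝔫.IsMaximal →
      algebraMap O (chartAlg O F₀ {s}) ϖ ∈ 𝔫 →
      ∀ Q ∈ centredSet K₀ 𝔫, Q.ord f₀ ≠ 0 →
        ∃ b : F₀, b ≠ 0 ∧ Q.ord b = 1 ∧ ∀ Q' ∈ centredSet K₀ 𝔫, Q' ≠ Q → Q'.ord b = 0) :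
    LocalRoots ϖ (iInfSubring V) s (sd σ f₀) e := by
  classical
  haveI : IsFractionRing (chartAlg O F₀ {s}) F₀ := isFractionRing_chartAlg (O := O) (K₀ := K₀) s hs
  haveI : IsIntegrallyClosed (chartAlg O F₀ {s}) :=
    isIntegrallyClosed_chartAlg (O := O) (K₀ := K₀) s hs
  haveI : IsNoetherianRing (chartAlg O F₀ {s}) := isNoetherianRing_chartAlg (O := O) (K := K₀) s hs
  have hinjO : Function.Injective (algebraMap O F₀) := by
    rw [IsScalarTower.algebraMap_eq O K₀ F₀]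
    exact (algebraMap K₀ F₀).injective.comp (IsFractionRing.injective O K₀)
  have hπ0 : algebraMap O F₀ ϖ ≠ 0 := fun h0 => hϖ.ne_zero (hinjO (by rw [h0, map_zero]))
  intro 𝔫 h𝔫 hϖ𝔫
  haveI : 𝔫.IsPrime := h𝔫.isPrime
  -- the data at `𝔫`
  set C : Set (Place K₀ F₀) := centredSet K₀ 𝔫 with hCdef
  let S : Finset (Place K₀ F₀) := S₀.filter (fun Q => Q ∈ C ∧ Q.ord f₀ ≠ 0)
  let D : Place K₀ F₀ → ℤ := fun Q => Q.ord f₀ / (e : ℤ)
  have hDe : ∀ Q, (e : ℤ) * D Q = Q.ord f₀ := fun Q => Int.mul_ediv_cancel' (hdiv Q)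
  have hD : ∀ P ∈ C, P ∉ S → D P = 0 := by
    intro P hPC hPS
    have h0 : P.ord f₀ = 0 := by
      by_contra hne
      exact hPS (Finset.mem_filter.2 ⟨hS₀ P hne, hPC, hne⟩)
    show P.ord f₀ / (e : ℤ) = 0
    rw [h0, Int.zero_ediv]
  have hSmem : ∀ P ∈ S, P ∈ C ∧ P.ord f₀ ≠ 0 := fun P hP => (Finset.mem_filter.1 hP).2
  choose! b hb0 hb1 hb2 using fun (P : Place K₀ F₀) (hP : P ∈ C ∧ P.ord f₀ ≠ 0) =>
    hLocP 𝔫 h𝔫 hϖ𝔫 P hP.1 hP.2
  have hsd0 : sd σ f₀ ≠ 0 := sd_ne_zero σ hf₀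
  have hfC : ∀ Q ∈ C, Q.ord (sd σ f₀) =
      (e : ℤ) * (D (τ.symm (τ.symm Q)) - 2 * D (τ.symm Q) + D Q) := by
    intro Q _
    rw [ord_sd (ord := fun (Q : Place K₀ F₀) (x : F₀) => Q.ord x) ordMul_place hτ Q hf₀]
    rw [mul_add, mul_sub, ← mul_assoc, mul_comm (e : ℤ) 2, mul_assoc, hDe, hDe, hDe]
  have hfV : ∀ i, (V i).valuation (sd σ f₀) = 1 := fun i =>
    (isPU_sd σ (hval i) (htriv i) hf₀).valuation_eq_one
  obtain ⟨η, hη0, hη1, w, hw, hηw⟩ :=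
    exists_localRoot_strong_at (K := K₀) V hV hϖ hϖV hsat 𝔫 hπ0 hπ σ hval htriv ordMul_place hτ
      (hC 𝔫 h𝔫 hϖ𝔫) S D hD b (fun P hP => hb0 P (hSmem P hP)) (fun P hP => hb1 P (hSmem P hP))
      (fun P hP => hb2 P (hSmem P hP)) (p := e) (f := sd σ f₀) (g := 1) hsd0 hfC hfV one_ne_zero
      (fun Q _ => Q.ord_one) (fun i => map_one _)
  exact ⟨η, hη0, hη1, w, hw, hηw⟩

end Fermat.Agent.P3G.Glue.LocalRootsSd
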