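/-
P3-G block (G-A)/(G-L) glue, file 4: `LocalRootsSd.localRoots_sd` for a **semilinear automorphism** and
**two** vertical valuation rings `V₁, V₂` (`PowCover.TwoVal`), with the stability of the closed points of
the special fibre (`hC`) and the Krull-type inputs (`hV hϖV hsat hπ`) DERIVED from

* `hT : TwoVal ϖ W V₁ V₂`, `hWs : IsSemiGaussRing W ϖ` (on the chart `R = chartAlg O F₀ {s}`),
* `g R = R`,
* `g` trivial on the residue fields of `V₁`, `V₂` (`htriv`) and valuation preserving (`hval`).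

The only remaining geometric input is **(Loc-P) at the rational places**: `LocPRat`.
-/
import Mathlib
import Fermat.Agent.P3G.Glue.LocalRootsSd
import Fermat.Prelude.Def_AlgebraicCurve_BaseChangeGalois

set_option autoImplicit false
set_option linter.unusedSectionVars false
set_option linter.style.haveILetI false

open Polynomial IntermediateField AlgebraicCurve
open scoped Pointwise

namespace Fermat.Agent.P3G.Glue.LevelRoots

open Fermat.Agent.N4.Chart Fermat.Agent.N4.IntClosure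
  Fermat.Agent.P3G.SecondDiff Fermat.Agent.P3G.UCrit Fermat.Agent.P3G.Cover.OfValuations
  Fermat.Agent.P3G.Cover.Lift Fermat.Agent.P3G.Assembly.PowCover
  Fermat.Agent.P3G.Glue.LocalRootsSd

universe u

variable {O K₀ : Type*} [CommRing O] [IsDomain O] [IsDiscreteValuationRing O]
  [Field K₀] [CharZero K₀] [Algebra O K₀] [IsFractionRing O K₀]
variable {F₀ : Type u} [Field F₀] [Algebra K₀ F₀] [Algebra O F₀] [IsScalarTower O K₀ F₀]

/-- The pair `(V₁, V₂)` as a family indexed by `Fin 2`. -/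
def pairV (V₁ V₂ : ValuationSubring F₀) : Fin 2 → ValuationSubring F₀ := ![V₁, V₂]

@[simp] theorem pairV_zero (V₁ V₂ : ValuationSubring F₀) : pairV V₁ V₂ 0 = V₁ := rfl
@[simp] theorem pairV_one (V₁ V₂ : ValuationSubring F₀) : pairV V₁ V₂ 1 = V₂ := rfl

theorem forall_pairV {V₁ V₂ : ValuationSubring F₀} {P : ValuationSubring F₀ → Prop} :
    (∀ i, P (pairV V₁ V₂ i)) ↔ P V₁ ∧ P V₂ := by
  rw [Fin.forall_fin_two]; rfl

/-- **(Loc-P) at the rational places of a chart**: at every closed point `𝔫` of the special fibre of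
`R = chartAlg O F₀ {s}`, every `K₀`-rational place `Q` centred at `𝔫` has a local equation `b`:
`ord_Q b = 1` and `ord_{Q'} b = 0` for every other place `Q'` (rational or not) centred at `𝔫`. -/
def LocPRat (K₀ : Type*) [Field K₀] [Algebra O K₀] {F₀ : Type u} [Field F₀] [Algebra K₀ F₀]
    [Algebra O F₀] (ϖ : O) (s : F₀) : Prop :=
  ∀ 𝔫 : Ideal (chartAlg O F₀ {s}), 𝔫.IsMaximal → algebraMap O (chartAlg O F₀ {s}) ϖ ∈ 𝔫 →
    ∀ Q ∈ centredSet K₀ 𝔫, Function.Bijective (algebraMap K₀ Q.ResidueField) →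
      ∃ b : F₀, b ≠ 0 ∧ Q.ord b = 1 ∧ ∀ Q' ∈ centredSet K₀ 𝔫, Q' ≠ Q → Q'.ord b = 0

section Nonunits

variable (g : SemilinearAut K₀ F₀)

omit [CharZero K₀] in
/-- Nonunits of a translate of a valuation subring. -/
theorem mem_nonunits_inv_smul_iff (A : ValuationSubring F₀) (x : F₀) :
    x ∈ (g⁻¹ • A : ValuationSubring F₀).nonunits ↔ g • x ∈ A.nonunits := by
  rw [ValuationSubring.mem_nonunits_iff_or, ValuationSubring.mem_nonunits_iff_or,
    ValuationSubring.mem_pointwise_smul_iff_inv_smul_mem, inv_inv, smul_inv'']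
  have : g • x = 0 ↔ x = 0 := by
    constructor
    · intro h
      have := congrArg (g⁻¹ • ·) h
      simpa using this
    · rintro rfl; exact smul_zero g
  rw [this]

omit [CharZero K₀] in
theorem mem_inv_smul_iff (A : ValuationSubring F₀) (x : F₀) :
    x ∈ (g⁻¹ • A : ValuationSubring F₀) ↔ g • x ∈ A := by
  rw [ValuationSubring.mem_pointwise_smul_iff_inv_smul_mem, inv_inv]

end Nonunits

/-- **Local roots of the second difference of a semilinear automorphism, two vertical components.** -/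
theorem localRoots_sd_semilinear (s : F₀) (hs : Transcendental K₀ s) [FiniteDimensional K₀⟮s⟯ F₀]
    {ϖ : O} (hϖ : Irreducible ϖ) (W : Subring F₀) (V₁ V₂ : ValuationSubring F₀)
    (hT : TwoVal ϖ W V₁ V₂)
    (hWs : IsSemiGaussRing W (algebraMap O (chartAlg O F₀ {s}) ϖ))
    (g : SemilinearAut K₀ F₀)
    (hgR : ∀ r : chartAlg O F₀ {s}, g • (r : F₀) ∈ chartAlg O F₀ {s})
    (hval₁ : ∀ b, V₁.valuation (g • b) = V₁.valuation b)
    (hval₂ : ∀ b, V₂.valuation (g • b) = V₂.valuation b)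
    (htriv₁ : ∀ x ∈ V₁, g • x - x ∈ V₁.nonunits)
    (htriv₂ : ∀ x ∈ V₂, g • x - x ∈ V₂.nonunits)
    {e : ℕ} {f₀ : F₀} (hf₀ : f₀ ≠ 0)
    (S₀ : Finset (Place K₀ F₀)) (hS₀ : ∀ Q : Place K₀ F₀, Q.ord f₀ ≠ 0 → Q ∈ S₀)
    (hdiv : ∀ Q : Place K₀ F₀, (e : ℤ) ∣ Q.ord f₀)
    (hrat : ∀ Q : Place K₀ F₀, Q.ord f₀ ≠ 0 → Function.Bijective (algebraMap K₀ Q.ResidueField))
    (hLocP : LocPRat K₀ ϖ s) :
    LocalRoots ϖ W s (sd (SemilinearAut.toRingAut g) f₀) e := by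
  classical
  set R := chartAlg O F₀ {s} with hR
  have hinjO : Function.Injective (algebraMap O F₀) := by
    rw [IsScalarTower.algebraMap_eq O K₀ F₀]
    exact (algebraMap K₀ F₀).injective.comp (IsFractionRing.injective O K₀)
  have hπ0 : algebraMap O F₀ ϖ ≠ 0 := fun h0 => hϖ.ne_zero (hinjO (by rw [h0, map_zero]))
  have hϖF : algebraMap R F₀ (algebraMap O R ϖ) = algebraMap O F₀ ϖ := rfl
  have hRV₁ : ∀ r : R, (r : F₀) ∈ V₁ := fun r => hT.mem₁ (hWs.le r)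
  have hRV₂ : ∀ r : R, (r : F₀) ∈ V₂ := fun r => hT.mem₂ (hWs.le r)
  -- the Krull-type inputs
  have hV : ∀ i (r : R), algebraMap R F₀ r ∈ pairV V₁ V₂ i := by
    intro i r
    revert i
    rw [Fin.forall_fin_two]
    exact ⟨hRV₁ r, hRV₂ r⟩
  have hϖV : ∀ i, algebraMap R F₀ (algebraMap O R ϖ) ∈ (pairV V₁ V₂ i).nonunits := by
    rw [Fin.forall_fin_two]
    exact ⟨hT.pi_mem₁, hT.pi_mem₂⟩
  have hsat : ∀ r : R, (∀ i, algebraMap R F₀ r ∈ (pairV V₁ V₂ i).nonunits) →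
      algebraMap O R ϖ ∣ r := by
    intro r hr
    rw [Fin.forall_fin_two] at hr
    obtain ⟨w, hw, hrw⟩ := hT.exists_eq_mul hr.1 hr.2
    exact hWs.sat r ⟨w, hw, by rw [hϖF]; exact hrw⟩
  have hπ : ∀ i x, (pairV V₁ V₂ i).valuation x < 1 →
      (pairV V₁ V₂ i).valuation x ≤ (pairV V₁ V₂ i).valuation (algebraMap O F₀ ϖ) := by
    have key : ∀ (A : ValuationSubring F₀),
        (∀ x ∈ A.nonunits, x * (algebraMap O F₀ ϖ)⁻¹ ∈ A) → ∀ x, A.valuation x < 1 →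
          A.valuation x ≤ A.valuation (algebraMap O F₀ ϖ) := by
      intro A hA x hx
      have h1 := hA x (A.mem_nonunits_iff.2 hx)
      rw [← A.valuation_le_one_iff, map_mul, map_inv₀] at h1
      have h0 : A.valuation (algebraMap O F₀ ϖ) ≠ 0 := (_root_.map_ne_zero _).2 hπ0
      rwa [← div_eq_mul_inv, div_le_one₀ (zero_lt_iff.2 h0)] at h1
    rw [Fin.forall_fin_two]
    exact ⟨key V₁ hT.unif₁, key V₂ hT.unif₂⟩
  have hval : ∀ i b, (pairV V₁ V₂ i).valuation (SemilinearAut.toRingAut g b) =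
      (pairV V₁ V₂ i).valuation b := by
    rw [Fin.forall_fin_two]
    exact ⟨hval₁, hval₂⟩
  have htriv : ∀ i, ∀ x ∈ pairV V₁ V₂ i,
      SemilinearAut.toRingAut g x - x ∈ (pairV V₁ V₂ i).nonunits := by
    rw [Fin.forall_fin_two]
    exact ⟨htriv₁, htriv₂⟩
  -- `g` is trivial modulo `ϖ` on the chart
  have hmod : ∀ r : R, ∃ t : R, g • (r : F₀) - r = algebraMap O F₀ ϖ * (t : F₀) := by
    intro r
    have hmem : g • (r : F₀) - r ∈ R := sub_mem (hgR r) r.2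
    obtain ⟨t, ht⟩ := hsat ⟨_, hmem⟩ (by
      rw [Fin.forall_fin_two]
      exact ⟨htriv₁ _ (hRV₁ r), htriv₂ _ (hRV₂ r)⟩)
    refine ⟨t, ?_⟩
    have := congrArg (fun z : R => (z : F₀)) ht
    simpa using this
  -- the permutation of the places and its compatibility
  let τ : Equiv.Perm (Place K₀ F₀) := MulAction.toPerm g
  have hτ : Compat (fun (Q : Place K₀ F₀) (x : F₀) => Q.ord x) (SemilinearAut.toRingAut g) τ :=
    fun Q f => SemilinearAut.ord_smul g Q f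
  -- `g` fixes the closed points of the special fibre
  have hC : ∀ 𝔫 : Ideal R, 𝔫.IsMaximal → algebraMap O R ϖ ∈ 𝔫 →
      ∀ Q ∈ centredSet K₀ 𝔫, τ.symm Q ∈ centredSet K₀ 𝔫 := by
    intro 𝔫 _ hϖ𝔫 Q hQ
    have hsymm : τ.symm Q = g⁻¹ • Q := rfl
    rw [hsymm]
    refine ⟨fun r => ?_, fun r hr => ?_⟩
    · show (r : F₀) ∈ (g⁻¹ • Q.toValuationSubring : ValuationSubring F₀)
      rw [mem_inv_smul_iff]
      exact hQ.1 ⟨_, hgR r⟩
    · have hr' : g • (r : F₀) ∈ Q.toValuationSubring.nonunits :=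
        (mem_nonunits_inv_smul_iff g Q.toValuationSubring (r : F₀)).1 hr
      have h1 : (⟨_, hgR r⟩ : R) ∈ 𝔫 := hQ.2 ⟨_, hgR r⟩ hr'
      obtain ⟨t, ht⟩ := hmod r
      have h2 : r = (⟨_, hgR r⟩ : R) - algebraMap O R ϖ * t := by
        apply Subtype.ext
        show (r : F₀) = g • (r : F₀) - algebraMap O F₀ ϖ * (t : F₀)
        rw [← ht]; ring
      rw [h2]
      exact 𝔫.sub_mem h1 (𝔫.mul_mem_right _ hϖ𝔫)
  -- (Loc-P) on the support of `div f₀`
  have hLoc : ∀ 𝔫 : Ideal R, 𝔫.IsMaximal → algebraMap O R ϖ ∈ 𝔫 →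
      ∀ Q ∈ centredSet K₀ 𝔫, Q.ord f₀ ≠ 0 →
        ∃ b : F₀, b ≠ 0 ∧ Q.ord b = 1 ∧ ∀ Q' ∈ centredSet K₀ 𝔫, Q' ≠ Q → Q'.ord b = 0 :=
    fun 𝔫 h𝔫 hϖ𝔫 Q hQ hQf => hLocP 𝔫 h𝔫 hϖ𝔫 Q hQ (hrat Q hQf)
  have key := localRoots_sd (K₀ := K₀) s hs hϖ (pairV V₁ V₂) hV hϖV hsat hπ
    (SemilinearAut.toRingAut g) hval htriv hτ hC hf₀ S₀ hS₀ hdiv hLoc
  intro 𝔫 h𝔫 hϖ𝔫
  obtain ⟨η, hη0, hη1, w, hw, hηw⟩ := key 𝔫 h𝔫 hϖ𝔫
  refine ⟨η, hη0, hη1, w, ?_, hηw⟩
  rw [mem_iInfSubring, Fin.forall_fin_two] at hw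
  exact (hT.mem_iff w).2 hw

omit [IsDomain O] [IsDiscreteValuationRing O] [CharZero K₀] [IsFractionRing O K₀]
  [IsScalarTower O K₀ F₀] in
/-- **The vertical hypothesis `hh` of `no_split_cover_pow`**: the second difference is `≡ 1` modulo
`ϖ W`. -/
theorem sd_sub_one_mem {ϖ : O} (W : Subring F₀) (V₁ V₂ : ValuationSubring F₀)
    (hT : TwoVal ϖ W V₁ V₂) (g : SemilinearAut K₀ F₀)
    (hval₁ : ∀ b, V₁.valuation (g • b) = V₁.valuation b)
    (hval₂ : ∀ b, V₂.valuation (g • b) = V₂.valuation b)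
    (htriv₁ : ∀ x ∈ V₁, g • x - x ∈ V₁.nonunits)
    (htriv₂ : ∀ x ∈ V₂, g • x - x ∈ V₂.nonunits) {f₀ : F₀} (hf₀ : f₀ ≠ 0) :
    ∃ w ∈ W, sd (SemilinearAut.toRingAut g) f₀ - 1 = algebraMap O F₀ ϖ * w := by
  have h₁ : sd (SemilinearAut.toRingAut g) f₀ - 1 ∈ V₁.nonunits :=
    (isPU_iff_mem_nonunits).1 (isPU_sd (SemilinearAut.toRingAut g) hval₁ htriv₁ hf₀)
  have h₂ : sd (SemilinearAut.toRingAut g) f₀ - 1 ∈ V₂.nonunits :=
    (isPU_iff_mem_nonunits).1 (isPU_sd (SemilinearAut.toRingAut g) hval₂ htriv₂ hf₀)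
  exact hT.exists_eq_mul h₁ h₂

end Fermat.Agent.P3G.Glue.LevelRoots
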