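/-
P3-G block (G-A) glue, file 5 = (X4) **level dictionary**, the part used by `Glue/LevelRoots.lean`:
for a level `K ⊆ Q̄` and `y ∈ F_K = FF (Lvl K) N`, from data about the divisor of `levK y` on `Q̄ · F_N`
to the corresponding data on the places of `F_K` (ALL places, rational or not):

* `dvd_ord_of_dvd_ord_bar` : `e ∣ ord_P (levK y)` for all `P` ⇒ `e ∣ ord_Q y` for all `Q`;
* `exists_finset_ord_ne_zero` : the support of `div y` on `F_K` is finite;
* `bijective_of_ord_ne_zero` : if the support of `div (levK y)` is `K`-rational, every place in the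
  support of `div y` has residue field `K` (in the `Function.Bijective (algebraMap K κ(Q))` form of
  `G/Points.lean`).
-/
import Mathlib
import Fermat.Agent.N4F.C.Rationality
import Fermat.Agent.N4F.A.LevelMaps

set_option autoImplicit false
set_option linter.unusedSectionVars false
set_option linter.style.haveILetI false

open AlgebraicCurve ModularCurve IntermediateField Polynomial

namespace Fermat.Agent.P3G.Glue.LevelDict

open Fermat.Agent.N4.Setting Fermat.Agent.S24 Fermat.Agent.N4F.C.Levels
open Fermat.Agent.S24.PlaceDeriv (ResidueTrivial)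

local notation "Qb" => AlgebraicClosure ℚ

section Generic

variable {K F : Type*} [Field K] [Field F] [Algebra K F]

/-- A place with trivial residue field extension is rational in the sense of `G/Points.lean`. -/
theorem bijective_of_residueTrivial {v : Place K F} (h : ResidueTrivial v) :
    Function.Bijective (algebraMap K v.ResidueField) := by
  refine ⟨(algebraMap K v.ResidueField).injective, fun x => ?_⟩
  obtain ⟨u, rfl⟩ := IsLocalRing.residue_surjective x
  obtain ⟨c, hc⟩ := h u
  refine ⟨c, ?_⟩
  have h1 : IsLocalRing.residue v.toValuationSubring (u - algebraMap K v.toValuationSubring c) = 0 :=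
    (IsLocalRing.residue_eq_zero_iff _).2 hc
  rw [map_sub, sub_eq_zero] at h1
  rw [h1]
  rfl

end Generic

section Level

variable (N : ℕ) [NeZero N] (K : IntermediateField ℚ Qb)

/-- Divisibility of all orders descends from `Q̄ · F_N` to `F_K` (every place of `F_K` has an unramified
extension). -/
theorem dvd_ord_of_dvd_ord_bar (y : FF (Lvl K) N) (e : ℤ)
    (h : ∀ P : Place Qb ↥(modularFunctionFieldBar N), e ∣ P.ord (levK N K y))
    (Q : Place (Lvl K) (FF (Lvl K) N)) : e ∣ Q.ord y := by
  obtain ⟨P, -, hP⟩ := exists_extendsK N K Q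
  rw [← hP y]
  exact h P

/-- The support of `div y` on `F_K` is finite. -/
theorem exists_finset_ord_ne_zero (y : FF (Lvl K) N) (hy : y ≠ 0) :
    ∃ S₀ : Finset (Place (Lvl K) (FF (Lvl K) N)),
      ∀ Q : Place (Lvl K) (FF (Lvl K) N), Q.ord y ≠ 0 → Q ∈ S₀ := by
  classical
  haveI := Fermat.Agent.N4F.A.LevelMaps.hasPrincipalDivisors_bar N
  have hy' : levK N K y ≠ 0 := (_root_.map_ne_zero _).2 hy
  obtain ⟨D, hD, -⟩ := HasPrincipalDivisors.exists_divisor (K := Qb) (levK N K y) hy'
  refine ⟨D.support.image (restrictK N K), fun Q hQ => ?_⟩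
  obtain ⟨P, hext, hP⟩ := exists_extendsK N K Q
  rw [Finset.mem_image]
  refine ⟨P, ?_, (eq_restrictK_of_extends N K hext).symm⟩
  rw [Finsupp.mem_support_iff, hD P, hP y]
  exact hQ

/-- If the zeros and poles of `levK y` are `K`-rational, so are those of `y`. -/
theorem bijective_of_ord_ne_zero (y : FF (Lvl K) N)
    (hrat : ∀ P : Place Qb ↥(modularFunctionFieldBar N), P.ord (levK N K y) ≠ 0 →
      ResidueTrivial (restrictK N K P))
    (Q : Place (Lvl K) (FF (Lvl K) N)) (hQ : Q.ord y ≠ 0) :
    Function.Bijective (algebraMap (Lvl K) Q.ResidueField) :=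
  bijective_of_residueTrivial (residueTrivial_of_ord_ne_zeroK N K y hrat Q hQ).1

end Level

end Fermat.Agent.P3G.Glue.LevelDict
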