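/-
P3-G block (G-A), file 1: **the contradiction at a fixed level `(K, O)`** — the nodal analogue of
`Fermat/Agent/N4/S18Glue/BaseMain.lean`.

`K ⊆ Q̄` a field (a type with `[Algebra K Q̄]`), `O ⊆ K` a discrete valuation ring with fraction field
`K`, `F₀ = FF K N` with its two charts `Rfin K N O`, `Rinf K N O`, and a common semilocal Gauss ring `W`
(`P3G.Cover.Lift.IsSemiGaussRing`).  This file removes the auxiliary Kummer extension `F'` and the
hypotheses `ht htop hirr halg` from `P3G.Cover.Main.no_split_cover`: they all follow from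

  `hnp : ∀ h : Q̄·F_N, h ^ p ≠ phiK K N f`   (`f` is not a `p`-th power over `Q̄`)

(`KummerConst.algClosed_in_kummer`, `S18Glue.algClosed_in_FF`).  Also: the crossing point of the two
vertical components at level `(K, O)` (`P3G.Cover.Connected.exists_crossing`) with `halg` discharged.
-/
import Fermat.Agent.N4.S18Glue.BaseMain
import Fermat.Agent.P3G.Cover.Main
import Fermat.Agent.P3G.Cover.Connected

set_option autoImplicit false
set_option linter.unusedSectionVars false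
set_option linter.style.haveILetI false

open ModularCurve Polynomial AlgebraicCurve IntermediateField

namespace Fermat.Agent.P3G.Glue.Base

open Fermat.Agent.N4.Setting Fermat.Agent.N4.Chart Fermat.Agent.N4.S18Glue
  Fermat.Agent.P3G.Cover.Lift

local notation "Qbar" => AlgebraicClosure ℚ

variable (K : Type) [Field K] [CharZero K] [Algebra K Qbar] [Algebra.IsAlgebraic K Qbar]
  (N : ℕ) [NeZero N] (O : Subring K) [IsDiscreteValuationRing ↥O] [IsFractionRing ↥O K]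

omit [CharZero K] [Algebra.IsAlgebraic K Qbar] [NeZero N] in
/-- `f ∈ F_K` not a `p`-th power in `Q̄ · F_N` ⇒ `X ^ p - f` is irreducible over `F_K`. -/
theorem irreducible_of_not_pow {p : ℕ} (hp : p.Prime) (f : FF K N)
    (hnp : ∀ h : ↥(modularFunctionFieldBar N), h ^ p ≠ phiK K N f) :
    Irreducible (X ^ p - C f : (FF K N)[X]) := by
  refine (X_pow_sub_C_irreducible_iff_of_prime hp).mpr fun b hb => hnp (phiK K N b) ?_
  rw [← map_pow, hb]

omit [CharZero K] [Algebra.IsAlgebraic K Qbar] [NeZero N] in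
/-- **The Kummer extension at level `K`**: for `f ∈ F_K` not a `p`-th power in `Q̄ · F_N`, the field
`F' = F_K[X]/(X ^ p - f)` is generated by a `p`-th root `t` of `f`, and `K` is algebraically closed in
it.  (The data `ht htop halg` of `P3G.Cover.Main.no_split_cover`.) -/
theorem kummer_data {p : ℕ} (hp : p.Prime) (f : FF K N)
    (hnp : ∀ h : ↥(modularFunctionFieldBar N), h ^ p ≠ phiK K N f)
    [Fact (Irreducible (X ^ p - C f : (FF K N)[X]))] :
    (AdjoinRoot.root (X ^ p - C f : (FF K N)[X])) ^ p =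
        algebraMap (FF K N) (AdjoinRoot (X ^ p - C f : (FF K N)[X])) f ∧
      (FF K N)⟮AdjoinRoot.root (X ^ p - C f : (FF K N)[X])⟯ = ⊤ ∧
      ∀ x : AdjoinRoot (X ^ p - C f : (FF K N)[X]), IsAlgebraic K x →
        x ∈ (algebraMap K (AdjoinRoot (X ^ p - C f : (FF K N)[X]))).range := by
  have hirrF : Irreducible (X ^ p - C (phiK K N f) : (↥(modularFunctionFieldBar N))[X]) :=
    (X_pow_sub_C_irreducible_iff_of_prime hp).mpr hnp
  have ht : (AdjoinRoot.root (X ^ p - C f : (FF K N)[X])) ^ p =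
      algebraMap (FF K N) (AdjoinRoot (X ^ p - C f : (FF K N)[X])) f := by
    have h := AdjoinRoot.eval₂_root (X ^ p - C f : (FF K N)[X])
    rw [eval₂_sub, eval₂_pow, eval₂_X, eval₂_C, sub_eq_zero] at h
    exact h
  have htop : (FF K N)⟮AdjoinRoot.root (X ^ p - C f : (FF K N)[X])⟯ = ⊤ :=
    IntermediateField.adjoin_eq_top_of_algebra _ _ (AdjoinRoot.adjoinRoot_eq_top)
  refine ⟨ht, htop, ?_⟩
  letI := algKBar K N
  haveI := isScalarTower_KBar K N
  exact Fermat.Agent.N4.KummerConst.algClosed_in_kummer (K := K) (L := Qbar) (phiKAlg K N)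
    (algClosed_in_FF K N) hp f hirrF _ ht htop

set_option maxHeartbeats 3200000 in
/-- **No split cyclic cover at a fixed level, weak local clause.**  `P3G.Cover.Main.no_split_cover` for
`F₀ = FF K N` with the Kummer extension and `halg` eliminated: it suffices that `f` is not a `p`-th power
in `Q̄ · F_N`. -/
theorem no_split_cover_FF {π : ↥O} (hπ : Irreducible π)
    (W : Subring (FF K N)) [IsIntegrallyClosed W] [IsFractionRing W (FF K N)]
    (hWp : IsSemiGaussRing W (algebraMap ↥O (Rfin K N O) π))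
    (hWm : IsSemiGaussRing W (algebraMap ↥O (Rinf K N O) π))
    {p : ℕ} (hp : p.Prime) (hpO : IsUnit ((p : ℕ) : ↥O)) {ζ : ↥O} (hζ : IsPrimitiveRoot ζ p)
    {f g : FF K N} (hf : f ≠ 0)
    (hnp : ∀ h : ↥(modularFunctionFieldBar N), h ^ p ≠ phiK K N f)
    (hg0 : g ≠ 0) (hg : g ∈ W) (hgi : g⁻¹ ∈ W)
    (hτ : ∃ w₀ ∈ W, (g⁻¹) ^ p * f - 1 = algebraMap ↥O (FF K N) π * w₀)
    (hlocp : ∀ 𝔫 : Ideal (Rfin K N O), 𝔫.IsMaximal →
      algebraMap ↥O (Rfin K N O) π ∈ 𝔫 → ∃ η : FF K N, η ≠ 0 ∧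
      (∃ a r : Rfin K N O, a ∉ 𝔫 ∧ r ∉ 𝔫 ∧
        f * algebraMap (Rfin K N O) (FF K N) a = η ^ p * algebraMap (Rfin K N O) (FF K N) r) ∧
      ∃ c : Rfin K N O, c ∉ 𝔫 ∧ ∀ k : ℕ, ∃ w ∈ W,
        algebraMap (Rfin K N O) (FF K N) c * ((η⁻¹) ^ k - (g⁻¹) ^ k) =
          algebraMap ↥O (FF K N) π * w)
    (hlocm : ∀ 𝔫 : Ideal (Rinf K N O), 𝔫.IsMaximal →
      algebraMap ↥O (Rinf K N O) π ∈ 𝔫 → ∃ η : FF K N, η ≠ 0 ∧
      (∃ a r : Rinf K N O, a ∉ 𝔫 ∧ r ∉ 𝔫 ∧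
        f * algebraMap (Rinf K N O) (FF K N) a = η ^ p * algebraMap (Rinf K N O) (FF K N) r) ∧
      ∃ c : Rinf K N O, c ∉ 𝔫 ∧ ∀ k : ℕ, ∃ w ∈ W,
        algebraMap (Rinf K N O) (FF K N) c * ((η⁻¹) ^ k - (g⁻¹) ^ k) =
          algebraMap ↥O (FF K N) π * w) : False := by
  -- irreducibility
  have hirrF : Irreducible (X ^ p - C (phiK K N f) : (↥(modularFunctionFieldBar N))[X]) :=
    (X_pow_sub_C_irreducible_iff_of_prime hp).mpr hnp
  have hirr0 : Irreducible (X ^ p - C f : (FF K N)[X]) := by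
    refine (X_pow_sub_C_irreducible_iff_of_prime hp).mpr fun b hb => hnp (phiK K N b) ?_
    rw [← map_pow, hb]
  haveI : Fact (Irreducible (X ^ p - C f : (FF K N)[X])) := ⟨hirr0⟩
  haveI := Fermat.Agent.N4.ModPolySetting.finiteDimensional_FF K N
  -- the Kummer extension
  let F' := AdjoinRoot (X ^ p - C f : (FF K N)[X])
  have ht : (AdjoinRoot.root (X ^ p - C f : (FF K N)[X])) ^ p = algebraMap (FF K N) F' f := by
    have h := AdjoinRoot.eval₂_root (X ^ p - C f : (FF K N)[X])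
    rw [eval₂_sub, eval₂_pow, eval₂_X, eval₂_C, sub_eq_zero] at h
    exact h
  have htop : (FF K N)⟮AdjoinRoot.root (X ^ p - C f : (FF K N)[X])⟯ = ⊤ :=
    IntermediateField.adjoin_eq_top_of_algebra _ _ (AdjoinRoot.adjoinRoot_eq_top)
  have halg : ∀ x : F', IsAlgebraic K x → x ∈ (algebraMap K F').range := by
    letI := algKBar K N
    haveI := isScalarTower_KBar K N
    exact Fermat.Agent.N4.KummerConst.algClosed_in_kummer (K := K) (L := Qbar) (phiKAlg K N)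
      (algClosed_in_FF K N) hp f hirrF _ ht htop
  exact Fermat.Agent.P3G.Cover.Main.no_split_cover (O := ↥O) (K₀ := K) (F₀ := FF K N) (F' := F')
    (jF K N) (Fermat.Agent.N4.FFAlgebraic.transcendental_jF K N) hπ W hWp hWm hp hpO hζ hf ht htop
    hirr0 halg hg0 hg hgi hτ hlocp hlocm

set_option maxHeartbeats 1600000 in
/-- **No split cyclic cover at a fixed level, strong local clause** (`η ≡ g` modulo `π W`). -/
theorem no_split_cover_FF_of_strong {π : ↥O} (hπ : Irreducible π)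
    (W : Subring (FF K N)) [IsIntegrallyClosed W] [IsFractionRing W (FF K N)]
    (hWp : IsSemiGaussRing W (algebraMap ↥O (Rfin K N O) π))
    (hWm : IsSemiGaussRing W (algebraMap ↥O (Rinf K N O) π))
    {p : ℕ} (hp : p.Prime) (hpO : IsUnit ((p : ℕ) : ↥O)) {ζ : ↥O} (hζ : IsPrimitiveRoot ζ p)
    {f g : FF K N} (hf : f ≠ 0)
    (hnp : ∀ h : ↥(modularFunctionFieldBar N), h ^ p ≠ phiK K N f)
    (hg0 : g ≠ 0) (hg : g ∈ W) (hgi : g⁻¹ ∈ W)
    (hτ : ∃ w₀ ∈ W, (g⁻¹) ^ p * f - 1 = algebraMap ↥O (FF K N) π * w₀)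
    (hlocp : ∀ 𝔫 : Ideal (Rfin K N O), 𝔫.IsMaximal →
      algebraMap ↥O (Rfin K N O) π ∈ 𝔫 → ∃ η : FF K N, η ≠ 0 ∧
      (∃ a r : Rfin K N O, a ∉ 𝔫 ∧ r ∉ 𝔫 ∧
        f * algebraMap (Rfin K N O) (FF K N) a = η ^ p * algebraMap (Rfin K N O) (FF K N) r) ∧
      ∃ w ∈ W, η - g = algebraMap ↥O (FF K N) π * w)
    (hlocm : ∀ 𝔫 : Ideal (Rinf K N O), 𝔫.IsMaximal →
      algebraMap ↥O (Rinf K N O) π ∈ 𝔫 → ∃ η : FF K N, η ≠ 0 ∧
      (∃ a r : Rinf K N O, a ∉ 𝔫 ∧ r ∉ 𝔫 ∧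
        f * algebraMap (Rinf K N O) (FF K N) a = η ^ p * algebraMap (Rinf K N O) (FF K N) r) ∧
      ∃ w ∈ W, η - g = algebraMap ↥O (FF K N) π * w) : False := by
  refine no_split_cover_FF K N O hπ W hWp hWm hp hpO hζ hf hnp hg0 hg hgi hτ ?_ ?_
  · intro 𝔫 h𝔫 hπ𝔫
    obtain ⟨η, hη0, h1, h2⟩ := hlocp 𝔫 h𝔫 hπ𝔫
    refine ⟨η, hη0, h1, 1, fun h => h𝔫.ne_top ((Ideal.eq_top_iff_one _).2 h), fun k => ?_⟩
    exact hWp.weak_of_strong hg0 hgi hη0 h2 k
  · intro 𝔫 h𝔫 hπ𝔫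
    obtain ⟨η, hη0, h1, h2⟩ := hlocm 𝔫 h𝔫 hπ𝔫
    refine ⟨η, hη0, h1, 1, fun h => h𝔫.ne_top ((Ideal.eq_top_iff_one _).2 h), fun k => ?_⟩
    exact hWm.weak_of_strong hg0 hgi hη0 h2 k

/-- **The two vertical components meet at level `(K, O)`**: `P3G.Cover.Connected.exists_crossing` for
`F₀ = FF K N` (`halg` = `S18Glue.algClosed_in_FF`). -/
theorem exists_crossing_FF {π : ↥O} (hπ : Irreducible π)
    (W : Subring (FF K N))
    (hWp : IsSemiGaussRing W (algebraMap ↥O (Rfin K N O) π))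
    (hWm : IsSemiGaussRing W (algebraMap ↥O (Rinf K N O) π))
    (V₁ V₂ : ValuationSubring (FF K N)) (hW : ∀ x : FF K N, x ∈ W ↔ x ∈ V₁ ∧ x ∈ V₂)
    (hπ₁ : algebraMap ↥O (FF K N) π ∈ V₁.nonunits) (hπ₂ : algebraMap ↥O (FF K N) π ∈ V₂.nonunits)
    (hu₁ : ∀ x ∈ V₁.nonunits, (algebraMap ↥O (FF K N) π)⁻¹ * x ∈ V₁)
    (hu₂ : ∀ x ∈ V₂.nonunits, (algebraMap ↥O (FF K N) π)⁻¹ * x ∈ V₂) :
    (∃ 𝔫 : Ideal (Rfin K N O), 𝔫.IsMaximal ∧
      ∀ r : Rfin K N O, ((r : FF K N) ∈ V₁.nonunits ∨ (r : FF K N) ∈ V₂.nonunits) → r ∈ 𝔫) ∨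
    (∃ 𝔫 : Ideal (Rinf K N O), 𝔫.IsMaximal ∧
      ∀ r : Rinf K N O, ((r : FF K N) ∈ V₁.nonunits ∨ (r : FF K N) ∈ V₂.nonunits) → r ∈ 𝔫) := by
  haveI := Fermat.Agent.N4.ModPolySetting.finiteDimensional_FF K N
  exact Fermat.Agent.P3G.Cover.Connected.exists_crossing (O := ↥O) (K₀ := K) (F₀ := FF K N)
    (jF K N) (Fermat.Agent.N4.FFAlgebraic.transcendental_jF K N) hπ (algClosed_in_FF K N) W hWp hWm
    V₁ V₂ hW hπ₁ hπ₂ hu₁ hu₂

end Fermat.Agent.P3G.Glue.Base
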