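/-
P3-G, final glue (helper18): ALL BASE FACTS AT A GOOD LEVEL, in one place.

For a prime `q`, a valuation subring `A` of `Q̄` over `q`, a good level `K`
(`LevelStep.IsGoodLevel A q K`) and a level `M` prime to `q`, with `O := baseRing A K = A ∩ K`:

* `goodBase`        : `GoodBase (Lvl K) M O q`;
* `isUnit_natCast`  : `M` is a unit of `O`;
* `starStatement`, `smoothStatement` : `(∗)` and `(S)` at level `M`;
* `hprimeFin/hprimeInf`, `hDedFin/hDedInf` : the special fibres of both charts are prime with
  Dedekind quotient;
* `hA2`             : Gauss reductions lie in the function field of the special fibre;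
* `iota`            : an embedding `Lvl K →+* ℂ`;
* `charP`, `perfectRing` : the residue field has characteristic `q` and is perfect;
* `nonempty_secondVal`, `nonempty_secondVal'` : the second Gauss valuation of `FF (Lvl K) (M * q)`
  exists (as a `SecondValuation.SecondVal`, resp. as a `FibreTwo.SecondVal`);
* `exists_betaOut`  : the output of the `β`-side in `AlphaSide.BetaOut` form.

These are exactly the non-geometric binders of `SecondValuation`, `TwoComponents`, `ChartFibre`,
`RbarFin` at the level.
-/
import Mathlib
import Fermat.Agent.P3G.Assembly.LevelStep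
import Fermat.Agent.P3G.SecondValuation
import Fermat.Agent.P3G.FibreTwo
import Fermat.Agent.N4F.C.LevelStatements
import Fermat.Agent.N4F.C.ChartReduction
import Fermat.Agent.N4F.E.NormReduction
import Fermat.Agent.N4F.E.AlphaSideFinal
import Fermat.Agent.N4F.E.GaussResidue

set_option autoImplicit false
set_option linter.unusedSectionVars false
set_option linter.style.haveILetI false

open ModularCurve AlgebraicCurve IntermediateField

noncomputable section

namespace Fermat.Agent.P3G.Glue.GoodLevel

open Fermat.Agent.N4.Setting Fermat.Agent.N4.Chart Fermat.Agent.N4.BigDVR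
  Fermat.Agent.N4.FibreEmbedding Fermat.Agent.S28.Gauss
  Fermat.Agent.P3G.Assembly.LevelStep Fermat.Agent.P3G.Gamma
  Fermat.Agent.N4F.C Fermat.Agent.N4F.C.Levels
  Fermat.Agent.N4F.E.DegreeLevelRaise

local notation "Qbar" => AlgebraicClosure ℚ

variable {A : ValuationSubring Qbar} {q : ℕ} (hq : q.Prime) (hA : A.LiesOverPrime q)
  {K : IntermediateField ℚ Qbar} [IsDiscreteValuationRing ↥(baseRing A K)]
  (hK : IsGoodLevel A q K) (M : ℕ) [NeZero M] (hqM : ¬ q ∣ M)

/-- The fraction-field instance of a level (the term every consumer uses). -/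
local instance instFrac : IsFractionRing ↥(baseRing A K) (Lvl K) := isFractionRing_trSubring A K

include hq hK hqM in
/-- A good level is a good base for every level prime to `q`. -/
theorem goodBase : GoodBase (Lvl K) M (baseRing A K) q :=
  ⟨hq, hqM, isFractionRing_trSubring A K, hK.not_unit⟩

include hq hA hqM in
/-- `M` is a unit of `O_K`. -/
theorem isUnit_natCast : IsUnit ((M : ℕ) : ↥(baseRing A K)) := by
  have hqA : ((q : ℕ) : Qbar) ∈ A.nonunits := hA
  have hMA : ((M : ℕ) : Qbar) ∉ A.nonunits :=
    Fermat.Agent.N4.S18Glue.natCast_not_mem_nonunits_of_coprime A hqA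
      (Nat.coprime_comm.mp ((Nat.Prime.coprime_iff_not_dvd hq).mpr hqM))
  exact Fermat.Agent.N4.S18Glue.isUnit_natCast_trS A (Lvl K) hMA

include hq hA hK hqM in
/-- `(∗)` at a good level. -/
theorem starStatement : StarStatement (Lvl K) M (baseRing A K) :=
  LevelStatements.starStatement_lvl hq hA K (goodBase hq hK M hqM) hK.roots

include hq hA hK hqM in
/-- `(S)` at a good level. -/
theorem smoothStatement : SmoothStatement (Lvl K) M (baseRing A K) := by
  haveI : IsAlgClosed (IsLocalRing.ResidueField ↥(baseRing A K)) := hK.algClosed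
  exact LevelStatements.smoothStatement_lvl hq hA hqM K (goodBase hq hK M hqM) hK.roots

include hq hA hK hqM in
theorem hprimeFin :
    (fibreIdeal (Lvl K) M (baseRing A K) (Rfin (Lvl K) M (baseRing A K))).IsPrime :=
  (starStatement hq hA hK M hqM).1.isPrime

include hq hA hK hqM in
theorem hprimeInf :
    (fibreIdeal (Lvl K) M (baseRing A K) (Rinf (Lvl K) M (baseRing A K))).IsPrime :=
  (starStatement hq hA hK M hqM).2.isPrime

include hq hA hK hqM in
theorem hDedFin :
    IsDedekindDomain (Rfin (Lvl K) M (baseRing A K) ⧸
      fibreIdeal (Lvl K) M (baseRing A K) (Rfin (Lvl K) M (baseRing A K))) :=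
  (smoothStatement hq hA hK M hqM).1

include hq hA hK hqM in
theorem hDedInf :
    IsDedekindDomain (Rinf (Lvl K) M (baseRing A K) ⧸
      fibreIdeal (Lvl K) M (baseRing A K) (Rinf (Lvl K) M (baseRing A K))) :=
  (smoothStatement hq hA hK M hqM).2

include hq hK in
/-- The residue field of `O_K` has characteristic `q`. -/
theorem charP : CharP (IsLocalRing.ResidueField ↥(baseRing A K)) q :=
  Fermat.Agent.N4F.E.GaussResidue.charP_residueField (Lvl K) 1 (baseRing A K)
    (goodBase hq hK 1 (fun h => hq.one_lt.ne' (Nat.dvd_one.mp h)))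

include hK in
theorem isAlgClosed : IsAlgClosed (IsLocalRing.ResidueField ↥(baseRing A K)) := hK.algClosed

include hq hK in
/-- The residue field of `O_K` is perfect. -/
theorem perfectRing :
    haveI := charP hq hK
    PerfectRing (IsLocalRing.ResidueField ↥(baseRing A K)) q := by
  haveI := charP hq hK
  haveI : IsAlgClosed (IsLocalRing.ResidueField ↥(baseRing A K)) := hK.algClosed
  haveI : Fact q.Prime := ⟨hq⟩
  infer_instance

include hq hA hK hqM in
/-- **(A2)** at a good level: Gauss reductions lie in the function field of the special fibre. -/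
theorem hA2 :
    ∀ x : ↥(gaussSubalgebra (Lvl K) M (baseRing A K)),
      theta (Lvl K) M (baseRing A K) x ∈
        modularFunctionFieldFullC (IsLocalRing.ResidueField ↥(baseRing A K)) M := by
  have hGB := goodBase hq hK M hqM
  have hstar := starStatement hq hA hK M hqM
  have hred : PGI.RedMem (Lvl K) M (baseRing A K) := fun s hs =>
    ChartReduction.red_mem_full (Lvl K) M (baseRing A K) hGB hstar s hs
  exact Fermat.Agent.N4F.E.NormReduction.theta_mem_full (Lvl K) M (baseRing A K) hred

/-- An embedding of the level into `ℂ`. -/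
def iota (K : IntermediateField ℚ Qbar) : Lvl K →+* ℂ := iotaOfAlgebraic (Lvl K)

include hq hA hK hqM in
/-- **The second Gauss valuation of `FF (Lvl K) (M * q)` exists at a good level.** -/
theorem nonempty_secondVal :
    haveI : Fact q.Prime := ⟨hq⟩
    Nonempty (Fermat.Agent.P3G.SecondValuation.SecondVal (Lvl K) M q (baseRing A K)) := by
  haveI : Fact q.Prime := ⟨hq⟩
  haveI := charP hq hK
  exact Fermat.Agent.P3G.SecondValuation.nonempty_secondVal (Lvl K) M q (baseRing A K)
    (iota K) hqM (hprimeFin hq hA hK M hqM) (hA2 hq hA hK M hqM)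

include hq hA hK hqM in
/-- The same for the twin structure `FibreTwo.SecondVal` (the one `GammaV2`, `FibreIdent`,
`FibreSatBridge`, `TwoComponentsFinal` are stated for). -/
theorem nonempty_secondVal' :
    haveI : Fact q.Prime := ⟨hq⟩
    Nonempty (Fermat.Agent.P3G.FibreTwo.SecondVal (Lvl K) M q (baseRing A K)) := by
  haveI : Fact q.Prime := ⟨hq⟩
  haveI := charP hq hK
  exact Fermat.Agent.P3G.FibreTwo.nonempty_secondVal (Lvl K) M q (baseRing A K)
    (iota K) hqM (hprimeFin hq hA hK M hqM) (hA2 hq hA hK M hqM)

include hq hA hK hqM in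
/-- The output of the `β`-side at a good level, in `AlphaSide.BetaOut` form. -/
theorem exists_betaOut :
    haveI : Fact q.Prime := ⟨hq⟩
    ∃ (S : Subring (FF (Lvl K) (M * q)))
      (ev : ↥S →+* LaurentSeries (IsLocalRing.ResidueField ↥(baseRing A K))),
      Fermat.Agent.N4F.E.AlphaSide.BetaOut (Lvl K) M q (baseRing A K) S ev := by
  haveI : Fact q.Prime := ⟨hq⟩
  haveI := charP hq hK
  exact Fermat.Agent.N4F.E.AlphaSideFinal.exists_betaOut (Lvl K) M q (baseRing A K) hqM
    (iota K) (hprimeFin hq hA hK M hqM) (hA2 hq hA hK M hqM)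

end Fermat.Agent.P3G.Glue.GoodLevel
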