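/-
P3-G, THE FINAL INSTANTIATION (helper18): `LevelPointsAll`, hence `LevelGeom`, hence frozen S34.

At a good level `K` for `A ∣ q` (`LevelStep.IsGoodLevel A q K`) and `N' = M * q`, `q ∤ M`, with
`O = baseRing A K`, `F = FF (Lvl K) (M * q)`:

* the base facts (`Glue.GoodLevel`) give a second Gauss valuation `S : FibreTwo.SecondVal (Lvl K) M q O`;
* `V₁ := gaussVS (Lvl K) (M * q) O`, `V₂ := S.V`, `W := FibreSatBridge.W … S = V₁ ⊓ V₂`;
* (V) `VertLevel`: `TwoVal`, semi-Gauss for both charts (`FibreSatBridge`, helper12), `σ`-invariance of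
  the valuations and triviality on the residue fields (`GammaGauss`, `GammaV2`, helper28);
* (P) `LocPChart` on both charts: `TwoComponentsFinal.locPRat_fin` (helper13),
  `TwoComponentsInfFinal.locPRat_inf` (helper19) through `LocPChartGlue.locPChart_fin/_inf` (helper9).

Then `LevelGeomOfPoints.levelGeom_of_points` / `s34_of_es_of_points` (helper19).
-/
import Mathlib
import Fermat.Agent.P3G.Glue.GoodLevel
import Fermat.Agent.P3G.Assembly.LevelGeomOfPoints
import Fermat.Agent.P3G.FibreSatBridge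
import Fermat.Agent.P3G.FibreIdent
import Fermat.Agent.P3G.GammaGauss
import Fermat.Agent.P3G.GammaV2
import Fermat.Agent.P3G.TwoComponentsFinal
import Fermat.Agent.P3G.TwoComponentsInfFinal
import Fermat.Agent.G.LocPChart
import Fermat.Agent.N4.Cover.Main
import Fermat.Agent.N4.FFAlgebraic
import Fermat.Agent.N4.ModPolySetting

set_option autoImplicit false
set_option linter.unusedSectionVars false
set_option linter.style.haveILetI false

open ModularCurve AlgebraicCurve IntermediateField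

noncomputable section

namespace Fermat.Agent.P3G.Glue.Final

open Fermat.Agent.N4.Setting Fermat.Agent.N4.Chart Fermat.Agent.N4.BigDVR
  Fermat.Agent.N4.FibreEmbedding Fermat.Agent.S28.Gauss
  Fermat.Agent.P3G.Cover.Lift Fermat.Agent.P3G.Cover.OfValuations
  Fermat.Agent.P3G.Assembly.PowCover
  Fermat.Agent.P3G.Assembly.LevelStep Fermat.Agent.P3G.Assembly.LevelGeomOfPoints
  Fermat.Agent.P3G.Gamma Fermat.Agent.P3G.GammaAut
  Fermat.Agent.N4F.C Fermat.Agent.N4F.C.Levels Fermat.Agent.N4F.C.Galois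
  Fermat.Agent.N4F.E.GaussDVR Fermat.Agent.N4F.E.DegreeLevelRaise

local notation "Qbar" => AlgebraicClosure ℚ
local notation "Γ" => (AlgebraicClosure ℚ ≃ₐ[ℚ] AlgebraicClosure ℚ)

/-! ### `W = V₁ ⊓ V₂` is an integrally closed domain with fraction field `F` -/

section TwoValInst

variable {O : Type*} [CommRing O] {F₀ : Type*} [Field F₀] [Algebra O F₀]
  {R : Type*} [CommRing R] [IsDomain R] [Algebra R F₀] [IsFractionRing R F₀]

/-- The pair of valuation rings as a family. -/
def pairOf (V₁ V₂ : ValuationSubring F₀) : Fin 2 → ValuationSubring F₀ := ![V₁, V₂]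

theorem eq_iInfSubring_of_mem_iff {W : Subring F₀} {V₁ V₂ : ValuationSubring F₀}
    (h : ∀ x, x ∈ W ↔ x ∈ V₁ ∧ x ∈ V₂) : W = iInfSubring (pairOf V₁ V₂) := by
  ext x
  rw [h, mem_iInfSubring]
  constructor
  · rintro ⟨h1, h2⟩ i
    fin_cases i
    · exact h1
    · exact h2
  · intro hx
    exact ⟨hx 0, hx 1⟩

/-- `W = V₁ ∩ V₂ ⊇ R` with `Frac R = F₀` is integrally closed. -/
theorem isIntegrallyClosed_of_mem_iff {W : Subring F₀} {V₁ V₂ : ValuationSubring F₀}
    (h : ∀ x, x ∈ W ↔ x ∈ V₁ ∧ x ∈ V₂) (hle : ∀ r : R, algebraMap R F₀ r ∈ W) :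
    IsIntegrallyClosed W := by
  rw [eq_iInfSubring_of_mem_iff h]
  refine isIntegrallyClosed_iInfSubring (R := R) (pairOf V₁ V₂) fun i r => ?_
  have := (h _).1 (hle r)
  fin_cases i
  · exact this.1
  · exact this.2

/-- `W = V₁ ∩ V₂ ⊇ R` with `Frac R = F₀` has fraction field `F₀`. -/
theorem isFractionRing_of_mem_iff {W : Subring F₀} {V₁ V₂ : ValuationSubring F₀}
    (h : ∀ x, x ∈ W ↔ x ∈ V₁ ∧ x ∈ V₂) (hle : ∀ r : R, algebraMap R F₀ r ∈ W) :
    IsFractionRing W F₀ := by
  rw [eq_iInfSubring_of_mem_iff h]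
  refine isFractionRing_iInfSubring (R := R) (pairOf V₁ V₂) fun i r => ?_
  have := (h _).1 (hle r)
  fin_cases i
  · exact this.1
  · exact this.2

end TwoValInst

/-! ### The level data at `N' = M * q` -/

section Level

variable {A : ValuationSubring Qbar} {q : ℕ} (hq : q.Prime) (hA : A.LiesOverPrime q)
  {K : IntermediateField ℚ Qbar} [IsDiscreteValuationRing ↥(baseRing A K)]
  (hK : IsGoodLevel A q K) (M : ℕ) [NeZero M] (hqM : ¬ q ∣ M)

local instance instFracFinal : IsFractionRing ↥(baseRing A K) (Lvl K) :=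
  isFractionRing_trSubring A K

set_option maxHeartbeats 1600000 in
include hq hA hK hqM in
/-- **(V) at a good level.** -/
theorem vertLevel [Fact q.Prime] [NeZero (M * q)]
    (S : Fermat.Agent.P3G.FibreTwo.SecondVal (Lvl K) M q (baseRing A K))
    {σ : Γ} (hσ : σ ∈ A.inertiaSubgroupIn ℚ) {ϖ : ↥(baseRing A K)} (hϖ : Irreducible ϖ) :
    VertLevel A K hK.stable (M * q) σ ϖ
      (Fermat.Agent.P3G.FibreSatBridge.W (Lvl K) M q (baseRing A K) S)
      (gaussVS (Lvl K) (M * q) (baseRing A K)) S.V := by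
  haveI := GoodLevel.charP hq hK
  have hτ := mem_decompositionSubgroup_of_mem_inertia hσ
  have hB := Fermat.Agent.P3G.FibreIdent.betaOut_of_secondVal (Lvl K) M q (baseRing A K) S
  have hprime := GoodLevel.hprimeFin hq hA hK M hqM
  have hprimeInf := GoodLevel.hprimeInf hq hA hK M hqM
  refine ⟨hϖ,
    Fermat.Agent.P3G.FibreSatBridge.twoVal (Lvl K) M q (baseRing A K) (GoodLevel.iota K) hqM
      hprime hB S hϖ,
    Fermat.Agent.P3G.FibreSatBridge.semiP (Lvl K) M q (baseRing A K) (GoodLevel.iota K) hqM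
      hprime hB S hϖ,
    Fermat.Agent.P3G.FibreSatBridge.semiM (Lvl K) M q (baseRing A K) (GoodLevel.iota K) hqM
      hprime hB S hprimeInf hϖ, ?_, ?_, ?_, ?_⟩
  · exact fun x =>
      Fermat.Agent.P3G.GammaGauss.valuation_levelFF_gaussVS K hK.stable (M * q) hτ x
  · exact fun x =>
      Fermat.Agent.P3G.GammaV2.valuation_levelFF_secondVal K hK.stable M q S hqM hτ x
  · exact Fermat.Agent.P3G.GammaGauss.trivialOnResidue_gaussVS K hK.stable (M * q) hσ
  · exact Fermat.Agent.P3G.GammaV2.trivialOnResidue_secondVal K hK.stable M q S hσ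

end Level

/-- **The level data at `N' = M * q`, `q ∤ M`.** -/
theorem levelPointsAt_mul {q : ℕ} (hq : q.Prime) (M : ℕ) [NeZero M] (hqM : ¬ q ∣ M)
    [NeZero (M * q)] : LevelPointsAt (M * q) q := by
  intro A hA σ hσ
  refine ⟨⊥, inferInstance, fun K hK _ => ?_⟩
  haveI := hK.dvr
  haveI : IsFractionRing ↥(baseRing A K) (Lvl K) := isFractionRing_trSubring A K
  haveI : Fact q.Prime := ⟨hq⟩
  haveI := GoodLevel.charP hq hK
  haveI := GoodLevel.perfectRing hq hK
  obtain ⟨ϖ, hϖ⟩ := IsDiscreteValuationRing.exists_irreducible ↥(baseRing A K)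
  obtain ⟨S⟩ := GoodLevel.nonempty_secondVal' hq hA hK M hqM
  have hV := vertLevel hq hA hK M hqM S hσ hϖ
  have hτ := mem_decompositionSubgroup_of_mem_inertia hσ
  -- the two instances for `W`
  haveI := Fermat.Agent.N4.ModPolySetting.finiteDimensional_FF (Lvl K) (M * q)
  have hjF : Transcendental (Lvl K) (jF (Lvl K) (M * q)) :=
    Fermat.Agent.N4.FFAlgebraic.transcendental_jF (Lvl K) (M * q)
  haveI : IsFractionRing (Rfin (Lvl K) (M * q) (baseRing A K)) (FF (Lvl K) (M * q)) :=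
    Fermat.Agent.N4.Cover.Main.isFractionRing_chartAlg (O := ↥(baseRing A K)) (K₀ := Lvl K)
      (jF (Lvl K) (M * q)) hjF
  have hWic : IsIntegrallyClosed
      (Fermat.Agent.P3G.FibreSatBridge.W (Lvl K) M q (baseRing A K) S) :=
    isIntegrallyClosed_of_mem_iff (R := Rfin (Lvl K) (M * q) (baseRing A K))
      hV.twoVal.mem_iff hV.semiP.le
  have hWfr : IsFractionRing
      (Fermat.Agent.P3G.FibreSatBridge.W (Lvl K) M q (baseRing A K) S) (FF (Lvl K) (M * q)) :=
    isFractionRing_of_mem_iff (R := Rfin (Lvl K) (M * q) (baseRing A K))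
      hV.twoVal.mem_iff hV.semiP.le
  refine ⟨ϖ, _, hWic, hWfr, _, _, hV, ?_, ?_⟩
  · exact Fermat.Agent.G.LocPChartGlue.locPChart_fin A K hK.stable (M * q) hτ hV
      (Fermat.Agent.P3G.TwoComponentsFinal.locPRat_fin (Lvl K) M q (baseRing A K)
        (GoodLevel.isUnit_natCast hq hA M hqM) (GoodLevel.iota K) hqM
        (GoodLevel.hprimeFin hq hA hK M hqM) (GoodLevel.hDedFin hq hA hK M hqM)
        (GoodLevel.hA2 hq hA hK M hqM) hϖ)
  · exact Fermat.Agent.G.LocPChartGlue.locPChart_inf A K hK.stable (M * q) hτ hV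
      (Fermat.Agent.P3G.TwoComponentsInfFinal.locPRat_inf (Lvl K) M q (baseRing A K)
        (GoodLevel.isUnit_natCast hq hA M hqM) (GoodLevel.iota K) hqM
        (GoodLevel.hprimeFin hq hA hK M hqM) (GoodLevel.hprimeInf hq hA hK M hqM)
        (GoodLevel.hDedInf hq hA hK M hqM) (GoodLevel.hA2 hq hA hK M hqM) hϖ)

/-- **The level data for all `q ∥ N'`.** -/
theorem levelPointsAll : LevelPointsAll := by
  intro N' _ q hq hqN hq2
  obtain ⟨M, hM⟩ := hqN
  have hM' : N' = M * q := by rw [hM, mul_comm]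
  subst hM'
  have hM0 : M ≠ 0 := by
    rintro rfl
    exact NeZero.ne (0 * q) (zero_mul q)
  haveI : NeZero M := ⟨hM0⟩
  have hqM : ¬ q ∣ M := by
    rintro ⟨M', rfl⟩
    apply hq2
    exact ⟨M', by ring⟩
  exact levelPointsAt_mul hq M hqM

/-- **(G) at stable levels.** -/
theorem levelGeom : LevelGeom :=
  levelGeom_of_points (levelPoints_of_all levelPointsAll)

end Fermat.Agent.P3G.Glue.Final
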