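/-
P3-G block (G-A), file 2: `Glue/Base.lean` in the `Lvl K` / `levK` / `baseRing A K` language of
`N4F/C` (levels `K : IntermediateField ℚ Q̄`).
-/
import Fermat.Agent.P3G.Glue.Base
import Fermat.Agent.N4F.C.Rationality

set_option autoImplicit false
set_option linter.unusedSectionVars false
set_option linter.style.haveILetI false

open ModularCurve Polynomial AlgebraicCurve IntermediateField

namespace Fermat.Agent.P3G.Glue.Level

open Fermat.Agent.N4.Setting Fermat.Agent.N4.Chart Fermat.Agent.N4.S18Glue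
  Fermat.Agent.P3G.Cover.Lift Fermat.Agent.N4F.C.Levels

local notation "Qb" => AlgebraicClosure ℚ

variable (N : ℕ) [NeZero N] (K : IntermediateField ℚ Qb)

/-- The level map of `N4F/C` is the base-change map of `S18Glue`. -/
theorem levK_eq_phiK (f : FF (Lvl K) N) : levK N K f = phiK (Lvl K) N f := rfl

variable (A : ValuationSubring Qb) [IsDiscreteValuationRing ↥(baseRing A K)]
  [IsFractionRing ↥(baseRing A K) (Lvl K)]

/-- **No split cyclic cover at a level `K`, strong local clause**, in `Lvl` language: `f ∈ F_K` is not a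
`p`-th power in `Q̄ · F_N`, `g` a unit of the semilocal Gauss ring `W` with `f / g ^ p ≡ 1` modulo `π W`,
and local roots `η ≡ g` modulo `π W` at every closed point of the special fibre of both charts. -/
theorem no_split_cover_level_of_strong {π : ↥(baseRing A K)} (hπ : Irreducible π)
    (W : Subring (FF (Lvl K) N)) [IsIntegrallyClosed W] [IsFractionRing W (FF (Lvl K) N)]
    (hWp : IsSemiGaussRing W (algebraMap ↥(baseRing A K) (Rfin (Lvl K) N (baseRing A K)) π))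
    (hWm : IsSemiGaussRing W (algebraMap ↥(baseRing A K) (Rinf (Lvl K) N (baseRing A K)) π))
    {p : ℕ} (hp : p.Prime) (hpO : IsUnit ((p : ℕ) : ↥(baseRing A K)))
    {ζ : ↥(baseRing A K)} (hζ : IsPrimitiveRoot ζ p)
    {f g : FF (Lvl K) N} (hf : f ≠ 0)
    (hnp : ∀ h : ↥(modularFunctionFieldBar N), h ^ p ≠ levK N K f)
    (hg0 : g ≠ 0) (hg : g ∈ W) (hgi : g⁻¹ ∈ W)
    (hτ : ∃ w₀ ∈ W, (g⁻¹) ^ p * f - 1 = algebraMap ↥(baseRing A K) (FF (Lvl K) N) π * w₀)
    (hlocp : ∀ 𝔫 : Ideal (Rfin (Lvl K) N (baseRing A K)), 𝔫.IsMaximal →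
      algebraMap ↥(baseRing A K) (Rfin (Lvl K) N (baseRing A K)) π ∈ 𝔫 →
      ∃ η : FF (Lvl K) N, η ≠ 0 ∧
      (∃ a r : Rfin (Lvl K) N (baseRing A K), a ∉ 𝔫 ∧ r ∉ 𝔫 ∧
        f * algebraMap (Rfin (Lvl K) N (baseRing A K)) (FF (Lvl K) N) a =
          η ^ p * algebraMap (Rfin (Lvl K) N (baseRing A K)) (FF (Lvl K) N) r) ∧
      ∃ w ∈ W, η - g = algebraMap ↥(baseRing A K) (FF (Lvl K) N) π * w)
    (hlocm : ∀ 𝔫 : Ideal (Rinf (Lvl K) N (baseRing A K)), 𝔫.IsMaximal →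
      algebraMap ↥(baseRing A K) (Rinf (Lvl K) N (baseRing A K)) π ∈ 𝔫 →
      ∃ η : FF (Lvl K) N, η ≠ 0 ∧
      (∃ a r : Rinf (Lvl K) N (baseRing A K), a ∉ 𝔫 ∧ r ∉ 𝔫 ∧
        f * algebraMap (Rinf (Lvl K) N (baseRing A K)) (FF (Lvl K) N) a =
          η ^ p * algebraMap (Rinf (Lvl K) N (baseRing A K)) (FF (Lvl K) N) r) ∧
      ∃ w ∈ W, η - g = algebraMap ↥(baseRing A K) (FF (Lvl K) N) π * w) : False :=
  Fermat.Agent.P3G.Glue.Base.no_split_cover_FF_of_strong (Lvl K) N (baseRing A K) hπ W hWp hWm hp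
    hpO hζ hf hnp hg0 hg hgi hτ hlocp hlocm

end Fermat.Agent.P3G.Glue.Level
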