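/-
P3-G block (G-A) glue, file 6: **the geometric bundle at a `Γ`-stable level `K`** — the hypotheses `hh`,
`hlocp`, `hlocm` of `P3G.Assembly.StepOfLevel.exists_pow_eq_of_level` for `h = sd σ_K f_K`
(`σ_K = levelFF K hK N σ`), from

* (I1) the two vertical valuation rings `V₁, V₂`, `W = V₁ ∩ V₂` (`TwoVal`), semi-Gauss for both charts
  [(G-N1), `P3G/FibreTwo.lean`];
* (I2) `σ_K` preserves the valuations of `V₁, V₂` and is trivial on their residue fields
  [(G-Γ), `P3G/GammaGauss.lean` for `V₁`, `P3G/FibreComp.lean` for `V₂`];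
* (I4) (Loc-P) at the rational places of both charts [`LevelRoots.LocPRat`; (G-N)/(G-L):
  `TwoComponents` + `CrossingLocal` + `LocPCrossing` + `PointsLoc`];
* the `Q̄`-level data of `f = levK f_K`: `e ∣ div f`, support of `div f` is `K`-rational.

Everything else ((X4) level dictionary, `σ_K` fixes the closed points of the special fibre, the Krull-type
inputs of the unit criterion, `Compat`) is discharged here.
-/
import Mathlib
import Fermat.Agent.P3G.Glue.LevelRoots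
import Fermat.Agent.P3G.Glue.LevelDict
import Fermat.Agent.P3G.GammaAut
import Fermat.Agent.N4.ModPolySetting
import Fermat.Agent.N4.FFAlgebraic

set_option autoImplicit false
set_option linter.unusedSectionVars false
set_option linter.style.haveILetI false

open Polynomial IntermediateField AlgebraicCurve ModularCurve

namespace Fermat.Agent.P3G.Glue.LevelGeom

open Fermat.Agent.N4.Setting Fermat.Agent.N4.Chart Fermat.Agent.N4F.C.Levels
  Fermat.Agent.P3G.SecondDiff Fermat.Agent.P3G.Cover.Lift Fermat.Agent.P3G.Assembly.PowCover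
  Fermat.Agent.P3G.Glue.LevelRoots Fermat.Agent.P3G.Glue.LevelDict Fermat.Agent.P3G.GammaAut
open Fermat.Agent.S24.PlaceDeriv (ResidueTrivial)

local notation "Qb" => AlgebraicClosure ℚ
local notation "Γ" => (AlgebraicClosure ℚ ≃ₐ[ℚ] AlgebraicClosure ℚ)

variable (N : ℕ) [NeZero N] (K : IntermediateField ℚ Qb)
  (hK : ∀ (τ : Γ) (x : Qb), x ∈ K → τ x ∈ K)
  (A : ValuationSubring Qb) [IsDiscreteValuationRing ↥(baseRing A K)]
  [IsFractionRing ↥(baseRing A K) (Lvl K)]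

/-- **The geometric bundle at a level.** -/
theorem bundle_of_inputs {ϖ : ↥(baseRing A K)} (hϖ : Irreducible ϖ)
    (W : Subring (FF (Lvl K) N)) (V₁ V₂ : ValuationSubring (FF (Lvl K) N))
    (hT : TwoVal ϖ W V₁ V₂)
    (hWp : IsSemiGaussRing W
      (algebraMap ↥(baseRing A K) (chartAlg ↥(baseRing A K) (FF (Lvl K) N) {jF (Lvl K) N}) ϖ))
    (hWm : IsSemiGaussRing W
      (algebraMap ↥(baseRing A K) (chartAlg ↥(baseRing A K) (FF (Lvl K) N) {(jF (Lvl K) N)⁻¹}) ϖ))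
    {σ : Γ} (hσ : σ ∈ A.decompositionSubgroup ℚ)
    (hval₁ : ∀ b, V₁.valuation (levelFF K hK N σ • b) = V₁.valuation b)
    (hval₂ : ∀ b, V₂.valuation (levelFF K hK N σ • b) = V₂.valuation b)
    (htriv₁ : ∀ x ∈ V₁, levelFF K hK N σ • x - x ∈ V₁.nonunits)
    (htriv₂ : ∀ x ∈ V₂, levelFF K hK N σ • x - x ∈ V₂.nonunits)
    (hLocPp : LocPRat (Lvl K) ϖ (jF (Lvl K) N))
    (hLocPm : LocPRat (Lvl K) ϖ (jF (Lvl K) N)⁻¹)
    {e : ℕ} {f : FF (Lvl K) N} (hf : f ≠ 0)
    (hdiv : ∀ P : Place Qb ↥(modularFunctionFieldBar N), (e : ℤ) ∣ P.ord (levK N K f))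
    (hrat : ∀ P : Place Qb ↥(modularFunctionFieldBar N), P.ord (levK N K f) ≠ 0 →
      ResidueTrivial (restrictK N K P)) :
    (∃ w ∈ W, sd (SemilinearAut.toRingAut (levelFF K hK N σ)) f - 1 =
        algebraMap ↥(baseRing A K) (FF (Lvl K) N) ϖ * w) ∧
      LocalRoots ϖ W (jF (Lvl K) N) (sd (SemilinearAut.toRingAut (levelFF K hK N σ)) f) e ∧
      LocalRoots ϖ W (jF (Lvl K) N)⁻¹ (sd (SemilinearAut.toRingAut (levelFF K hK N σ)) f) e := by
  haveI := Fermat.Agent.N4.ModPolySetting.finiteDimensional_FF (Lvl K) N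
  have hj := Fermat.Agent.N4.FFAlgebraic.transcendental_jF (Lvl K) N
  have hjinv : Transcendental (Lvl K) (jF (Lvl K) N)⁻¹ := fun h => hj (by simpa using h.inv)
  haveI : FiniteDimensional (Lvl K)⟮(jF (Lvl K) N)⁻¹⟯ (FF (Lvl K) N) := by
    rw [Fermat.Agent.N4.Cover.Main.adjoin_inv_eq]; infer_instance
  obtain ⟨S₀, hS₀⟩ := exists_finset_ord_ne_zero N K f hf
  have hdiv' := dvd_ord_of_dvd_ord_bar N K f (e : ℤ) hdiv
  have hrat' := bijective_of_ord_ne_zero N K f hrat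
  refine ⟨sd_sub_one_mem W V₁ V₂ hT (levelFF K hK N σ) hval₁ hval₂ htriv₁ htriv₂ hf, ?_, ?_⟩
  · exact localRoots_sd_semilinear (K₀ := Lvl K) (jF (Lvl K) N) hj hϖ W V₁ V₂ hT hWp
      (levelFF K hK N σ) (fun r => (levelFF_smul_mem_Rfin_iff K hK N hσ).2 r.2)
      hval₁ hval₂ htriv₁ htriv₂ hf S₀ hS₀ hdiv' hrat' hLocPp
  · exact localRoots_sd_semilinear (K₀ := Lvl K) (jF (Lvl K) N)⁻¹ hjinv hϖ W V₁ V₂ hT hWm
      (levelFF K hK N σ) (fun r => (levelFF_smul_mem_Rinf_iff K hK N hσ).2 r.2)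
      hval₁ hval₂ htriv₁ htriv₂ hf S₀ hS₀ hdiv' hrat' hLocPm

end Fermat.Agent.P3G.Glue.LevelGeom
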